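/-
MAZ brick EF7 (helper51), part 1: Liouville for elliptic functions on Mathlib's `PeriodPair`.

An `L`-periodic function which is analytic off the lattice and has a removable singularity at
`0` is constant off the lattice.  Mathlib only.
-/
import Mathlib.Analysis.SpecialFunctions.Elliptic.Weierstrass

namespace Fermat.Agent.MAZ.EF51.Liouville

open Filter Topology
open scoped PeriodPair

variable (L : PeriodPair)

/-- An entire function which is periodic with respect to a period lattice is constant. -/
theorem entire_periodic_const (g : ℂ → ℂ) (hg : Differentiable ℂ g)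
    (hper : ∀ z, ∀ l ∈ L.lattice, g (z + l) = g z) (z w : ℂ) : g z = g w :=
  hg.apply_eq_apply_of_bounded
    (IsZLattice.isCompact_range_of_periodic L.lattice g hg.continuous hper).isBounded z w

/-- A periodic function which is analytic off the lattice and at `0` is entire. -/
theorem analyticAt_of_periodic (g : ℂ → ℂ) (han : AnalyticOnNhd ℂ g L.latticeᶜ)
    (hper : ∀ z, ∀ l ∈ L.lattice, g (z + l) = g z) (h0 : AnalyticAt ℂ g 0) (x : ℂ) :
    AnalyticAt ℂ g x := by
  by_cases hx : x ∈ L.lattice
  · have h1 : AnalyticAt ℂ g (x - x) := by simpa using h0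
    have h2 : AnalyticAt ℂ (fun z : ℂ => g (z - x)) x :=
      AnalyticAt.comp (f := fun z : ℂ => z - x) (g := g) h1 (by fun_prop)
    refine h2.congr (Eventually.of_forall fun z => ?_)
    have := hper (z - x) x hx
    simpa using this.symm
  · exact han x hx

/-- **Liouville for elliptic functions.** A periodic function which is analytic off the lattice
and at `0` is constant. -/
theorem periodic_const (g : ℂ → ℂ) (han : AnalyticOnNhd ℂ g L.latticeᶜ)
    (hper : ∀ z, ∀ l ∈ L.lattice, g (z + l) = g z) (h0 : AnalyticAt ℂ g 0) (z : ℂ) :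
    g z = g 0 :=
  entire_periodic_const L g
    (fun x => (analyticAt_of_periodic L g han hper h0 x).differentiableAt) hper z 0

/-- **Liouville for elliptic functions, removable-singularity form.** If `f` is periodic,
analytic off the lattice, and agrees on a punctured neighbourhood of `0` with a function `h`
analytic at `0`, then `f` is constant `= h 0` off the lattice. -/
theorem eq_const_of_eventuallyEq (f : ℂ → ℂ) (han : AnalyticOnNhd ℂ f L.latticeᶜ)
    (hper : ∀ z, ∀ l ∈ L.lattice, f (z + l) = f z) (h : ℂ → ℂ) (hh : AnalyticAt ℂ h 0)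
    (hfh : ∀ᶠ z in 𝓝[≠] (0 : ℂ), f z = h z) {z : ℂ} (hz : z ∉ L.lattice) : f z = h 0 := by
  classical
  set g : ℂ → ℂ := fun z => if z ∈ L.lattice then h 0 else f z with hg
  have hg_off : ∀ {w : ℂ}, w ∉ L.lattice → g w = f w := fun {w} hw => by simp [hg, hw]
  have hg0 : g 0 = h 0 := by simp [hg]
  have hgan : AnalyticOnNhd ℂ g L.latticeᶜ := by
    intro x hx
    refine (han x hx).congr ?_
    filter_upwards [L.isClosed_lattice.isOpen_compl.mem_nhds hx] with w hw
    exact (hg_off hw).symm
  have hgper : ∀ z, ∀ l ∈ L.lattice, g (z + l) = g z := by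
    intro z l hl
    have hiff : z + l ∈ L.lattice ↔ z ∈ L.lattice :=
      ⟨fun hzl => by simpa using L.lattice.sub_mem hzl hl, fun hz => L.lattice.add_mem hz hl⟩
    by_cases hz : z ∈ L.lattice
    · simp [hg, hz, hiff.mpr hz]
    · have hz' : z + l ∉ L.lattice := fun h' => hz (hiff.mp h')
      rw [hg_off hz, hg_off hz', hper z l hl]
  have hg0an : AnalyticAt ℂ g 0 := by
    refine hh.congr ?_
    have h1 : ∀ᶠ z in 𝓝 (0 : ℂ), z ≠ 0 → f z = h z := by
      have := hfh
      rw [eventually_nhdsWithin_iff] at this
      filter_upwards [this] with z hz hz0 using hz hz0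
    filter_upwards [h1, L.compl_lattice_sdiff_singleton_mem_nhds 0] with z hz hz'
    by_cases hz0 : z = 0
    · subst hz0; exact hg0.symm
    · have hzL : z ∉ L.lattice := fun hzL => hz' ⟨hzL, hz0⟩
      rw [hg_off hzL, hz hz0]
  rw [← hg_off hz, periodic_const L g hgan hgper hg0an z, hg0]

end Fermat.Agent.MAZ.EF51.Liouville
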