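/-
MAZ brick EF7 (helper51), part 2: an even `L`-elliptic function which is analytic off the
lattice and has a pole of order at most `2 n` at `0` is a polynomial of degree at most `n` in
`℘[L]`.  Mathlib only.
-/
import Fermat.Agent.MAZ.EF51.Liouville

namespace Fermat.Agent.MAZ.EF51.Even

open Filter Topology Polynomial
open scoped PeriodPair

variable (L : PeriodPair)

/-- `f` has a pole of order at most `m` at `0`: the function `z ^ m * f z` agrees near `0`
(away from `0`) with a function analytic at `0`. -/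
def PoleLE (f : ℂ → ℂ) (m : ℕ) : Prop :=
  ∃ h : ℂ → ℂ, AnalyticAt ℂ h 0 ∧ ∀ᶠ z in 𝓝[≠] (0 : ℂ), z ^ m * f z = h z

/-- An analytic germ at `0` which is even and vanishes at `0` is divisible by `z ^ 2`. -/
theorem exists_eq_sq_mul_of_even (h : ℂ → ℂ) (hh : AnalyticAt ℂ h 0) (h0 : h 0 = 0)
    (heven : ∀ᶠ z in 𝓝 (0 : ℂ), h (-z) = h z) :
    ∃ h₂ : ℂ → ℂ, AnalyticAt ℂ h₂ 0 ∧ ∀ᶠ z in 𝓝 (0 : ℂ), h z = z ^ 2 * h₂ z := by
  have hord : ((2 : ℕ) : ℕ∞) ≤ analyticOrderAt h 0 := by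
    rw [natCast_le_analyticOrderAt_iff_iteratedDeriv_eq_zero hh]
    intro i hi
    interval_cases i
    · simpa using h0
    · have h1 : iteratedDeriv 1 (fun x => h (-x)) 0 = iteratedDeriv 1 h 0 :=
        Filter.EventuallyEq.iteratedDeriv_eq 1 heven
      have h2 := iteratedDeriv_comp_neg 1 h (0 : ℂ)
      rw [h1] at h2
      simp only [pow_one, neg_zero, neg_smul, one_smul] at h2
      exact self_eq_neg.mp h2
  obtain ⟨g, hg, hgh⟩ := (natCast_le_analyticOrderAt hh).mp hord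
  exact ⟨g, hg, by simpa using hgh⟩

/-- The function `z ↦ z ^ 2 * ℘[L] z`, extended by the value `1` at `0`. -/
noncomputable def kfun (z : ℂ) : ℂ := z ^ 2 * ℘[L - (0 : ℂ)] z + 1

theorem analyticAt_kfun : AnalyticAt ℂ (kfun L) 0 := by
  have := L.analyticAt_weierstrassPExcept 0
  unfold kfun
  fun_prop

@[simp] theorem kfun_zero : kfun L 0 = 1 := by simp [kfun]

theorem kfun_eq {z : ℂ} (hz : z ≠ 0) : kfun L z = z ^ 2 * ℘[L] z := by
  have := L.ite_eq_one_sub_sq_mul_weierstrassP 0 (zero_mem _) z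
  simp only [hz, if_false, sub_zero, ne_eq, OfNat.ofNat_ne_zero, not_false_eq_true, zero_pow,
    div_zero] at this
  rw [kfun, this]

theorem weierstrassP_periodic (z : ℂ) (l : ℂ) (hl : l ∈ L.lattice) : ℘[L] (z + l) = ℘[L] z :=
  L.weierstrassP_add_coe z ⟨l, hl⟩

/-- Main induction: even elliptic functions analytic off the lattice are polynomials in `℘`. -/
theorem even_elliptic_eq_polynomial_aux (n : ℕ) :
    ∀ f : ℂ → ℂ, AnalyticOnNhd ℂ f L.latticeᶜ → (∀ z, ∀ l ∈ L.lattice, f (z + l) = f z) →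
      (∀ z, f (-z) = f z) → PoleLE f (2 * n) →
      ∃ P : ℂ[X], P.natDegree ≤ n ∧ ∀ z, z ∉ L.lattice → f z = P.eval (℘[L] z) := by
  induction n with
  | zero =>
    rintro f han hper - ⟨h, hh, hfh⟩
    refine ⟨C (h 0), by simp, fun z hz => ?_⟩
    rw [eval_C]
    refine Liouville.eq_const_of_eventuallyEq L f han hper h hh ?_ hz
    filter_upwards [hfh] with z hz
    simpa using hz
  | succ n ih =>
    rintro f han hper heven ⟨h, hh, hfh⟩
    set a : ℂ := h 0 with ha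
    set f₁ : ℂ → ℂ := fun z => f z - a * ℘[L] z ^ (n + 1) with hf₁
    have han₁ : AnalyticOnNhd ℂ f₁ L.latticeᶜ := by
      intro x hx
      have h1 := han x hx
      have h2 := L.analyticOnNhd_weierstrassP x hx
      simp only [hf₁]
      fun_prop
    have hper₁ : ∀ z, ∀ l ∈ L.lattice, f₁ (z + l) = f₁ z := by
      intro z l hl
      simp only [hf₁, hper z l hl, weierstrassP_periodic L z l hl]
    have heven₁ : ∀ z, f₁ (-z) = f₁ z := by
      intro z
      simp only [hf₁, heven z, L.weierstrassP_neg]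
    -- the new numerator
    set h₁ : ℂ → ℂ := fun z => h z - a * kfun L z ^ (n + 1) with hh₁
    have hh₁an : AnalyticAt ℂ h₁ 0 := by
      have := analyticAt_kfun L
      simp only [hh₁]
      fun_prop
    have hh₁0 : h₁ 0 = 0 := by simp [hh₁, ha]
    have hfh₁ : ∀ᶠ z in 𝓝[≠] (0 : ℂ), z ^ (2 * (n + 1)) * f₁ z = h₁ z := by
      filter_upwards [hfh, self_mem_nhdsWithin] with z hz hz0
      have hz0' : z ≠ 0 := hz0
      simp only [hf₁, hh₁, kfun_eq L hz0', ← hz]
      ring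
    have hfh₁' : ∀ᶠ z in 𝓝 (0 : ℂ), z ≠ 0 → z ^ (2 * (n + 1)) * f₁ z = h₁ z := by
      rwa [eventually_nhdsWithin_iff] at hfh₁
    have hfh₁'' : ∀ᶠ z in 𝓝 (0 : ℂ), -z ≠ 0 → (-z) ^ (2 * (n + 1)) * f₁ (-z) = h₁ (-z) := by
      have ht : Tendsto (fun z : ℂ => -z) (𝓝 0) (𝓝 0) := by
        simpa using (continuous_neg (G := ℂ)).tendsto 0
      exact ht.eventually hfh₁'
    have hh₁even : ∀ᶠ z in 𝓝 (0 : ℂ), h₁ (-z) = h₁ z := by
      filter_upwards [hfh₁', hfh₁''] with z hz hz'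
      by_cases hz0 : z = 0
      · simp [hz0]
      · rw [← hz hz0, ← hz' (by simpa using hz0), heven₁ z,
          Even.neg_pow (even_two_mul (n + 1))]
    obtain ⟨h₂, hh₂, hh₁₂⟩ := exists_eq_sq_mul_of_even h₁ hh₁an hh₁0 hh₁even
    have hpole : PoleLE f₁ (2 * n) := by
      refine ⟨h₂, hh₂, ?_⟩
      have hh₁₂' : ∀ᶠ z in 𝓝[≠] (0 : ℂ), h₁ z = z ^ 2 * h₂ z :=
        hh₁₂.filter_mono nhdsWithin_le_nhds
      filter_upwards [hfh₁, hh₁₂', self_mem_nhdsWithin] with z hz hz' hz0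
      have hz0' : z ≠ 0 := hz0
      have : z ^ 2 * (z ^ (2 * n) * f₁ z) = z ^ 2 * h₂ z := by
        rw [← hz', ← hz]; ring
      exact mul_left_cancel₀ (pow_ne_zero 2 hz0') this
    obtain ⟨P₁, hP₁deg, hP₁⟩ := ih f₁ han₁ hper₁ heven₁ hpole
    refine ⟨P₁ + C a * X ^ (n + 1), ?_, fun z hz => ?_⟩
    · refine (natDegree_add_le _ _).trans (max_le (hP₁deg.trans (Nat.le_succ n)) ?_)
      exact natDegree_C_mul_X_pow_le a (n + 1)
    · have := hP₁ z hz
      simp only [hf₁] at this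
      simp only [eval_add, eval_mul, eval_C, eval_pow, eval_X, ← this]
      ring

end Fermat.Agent.MAZ.EF51.Even
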