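/-
MAZ brick EF7 (helper51), part 3: user-facing forms.

* `poleLE_iff` : the predicate `PoleLE f m` is `MeromorphicAt f 0 ∧ -m ≤ meromorphicOrderAt f 0`.
* `even_elliptic_eq_polynomial` : EF7 with the hypothesis stated through `meromorphicOrderAt`.
* closure properties of `PoleLE` and the basic instances `℘`, `℘'`.
Mathlib only.
-/
import Fermat.Agent.MAZ.EF51.Even

namespace Fermat.Agent.MAZ.EF51.Final

open Filter Topology Polynomial
open scoped PeriodPair
open Fermat.Agent.MAZ.EF51.Even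

variable (L : PeriodPair)

theorem meromorphicOrderAt_pow_id_zero (m : ℕ) :
    meromorphicOrderAt (fun z : ℂ => z ^ m) 0 = (m : ℤ) := by
  have := meromorphicOrderAt_pow_id_sub_const (𝕜 := ℂ) (x := 0) (n := m)
  have h2 : ((fun z : ℂ => z - 0) ^ m) = fun z : ℂ => z ^ m := by
    funext z; simp
  rw [h2] at this
  simpa using this

theorem poleLE_meromorphicAt {f : ℂ → ℂ} {m : ℕ} (hf : PoleLE f m) : MeromorphicAt f 0 := by
  obtain ⟨h, hh, hfh⟩ := hf
  have h1 : MeromorphicAt (fun z : ℂ => (z ^ m)⁻¹ * h z) 0 := by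
    have := hh.meromorphicAt
    fun_prop
  refine h1.congr ?_
  filter_upwards [hfh, self_mem_nhdsWithin] with z hz hz0
  have hz0' : z ≠ 0 := hz0
  rw [← hz, inv_mul_cancel_left₀ (pow_ne_zero m hz0')]

theorem poleLE_iff (f : ℂ → ℂ) (m : ℕ) :
    PoleLE f m ↔ MeromorphicAt f 0 ∧ ((-(m : ℤ) : ℤ) : WithTop ℤ) ≤ meromorphicOrderAt f 0 := by
  constructor
  · intro hf
    refine ⟨poleLE_meromorphicAt hf, ?_⟩
    have hmer := poleLE_meromorphicAt hf
    obtain ⟨h, hh, hfh⟩ := hf
    have hpow : MeromorphicAt (fun z : ℂ => z ^ m) 0 := by fun_prop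
    have h1 : meromorphicOrderAt (fun z : ℂ => z ^ m * f z) 0 = meromorphicOrderAt h 0 :=
      meromorphicOrderAt_congr hfh
    have h2 : meromorphicOrderAt (fun z : ℂ => z ^ m * f z) 0 =
        (m : ℤ) + meromorphicOrderAt f 0 := by
      rw [fun_meromorphicOrderAt_mul hpow hmer, meromorphicOrderAt_pow_id_zero]
    have h3 : (0 : WithTop ℤ) ≤ (m : ℤ) + meromorphicOrderAt f 0 := by
      rw [← h2, h1]; exact hh.meromorphicOrderAt_nonneg
    cases ho : meromorphicOrderAt f 0 with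
    | top => exact le_top
    | coe k =>
      rw [ho] at h3
      have h4 : (0 : ℤ) ≤ (m : ℤ) + k := by exact_mod_cast h3
      exact_mod_cast (by omega : -(m : ℤ) ≤ k)
  · rintro ⟨hmer, hord⟩
    have hpow : MeromorphicAt (fun z : ℂ => z ^ m) 0 := by fun_prop
    have hmer' : MeromorphicAt (fun z : ℂ => z ^ m * f z) 0 := hpow.fun_mul hmer
    have h2 : meromorphicOrderAt (fun z : ℂ => z ^ m * f z) 0 =
        (m : ℤ) + meromorphicOrderAt f 0 := by
      rw [fun_meromorphicOrderAt_mul hpow hmer, meromorphicOrderAt_pow_id_zero]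
    have h3 : (0 : WithTop ℤ) ≤ meromorphicOrderAt (fun z : ℂ => z ^ m * f z) 0 := by
      rw [h2]
      cases ho : meromorphicOrderAt f 0 with
      | top => simp
      | coe k =>
        rw [ho] at hord
        have h4 : -(m : ℤ) ≤ k := by exact_mod_cast hord
        exact_mod_cast (by omega : (0 : ℤ) ≤ (m : ℤ) + k)
    obtain ⟨g, hg, hfg⟩ := hmer'.meromorphicOrderAt_nonneg_iff.mp h3
    exact ⟨g, hg, hfg⟩

/-- **EF7 (even case).** An even `L`-elliptic function which is analytic off the lattice and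
whose pole at `0` has order at most `2 n` is a polynomial of degree at most `n` in `℘[L]`. -/
theorem even_elliptic_eq_polynomial_of_poleLE (f : ℂ → ℂ) (han : AnalyticOnNhd ℂ f L.latticeᶜ)
    (hper : ∀ z, ∀ l ∈ L.lattice, f (z + l) = f z) (heven : ∀ z, f (-z) = f z) (n : ℕ)
    (hpole : PoleLE f (2 * n)) :
    ∃ P : ℂ[X], P.natDegree ≤ n ∧ ∀ z, z ∉ L.lattice → f z = P.eval (℘[L] z) :=
  even_elliptic_eq_polynomial_aux L n f han hper heven hpole

/-- **EF7 (even case), `meromorphicOrderAt` form.** -/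
theorem even_elliptic_eq_polynomial (f : ℂ → ℂ) (hmer : MeromorphicAt f 0)
    (han : AnalyticOnNhd ℂ f L.latticeᶜ) (hper : ∀ z, ∀ l ∈ L.lattice, f (z + l) = f z)
    (heven : ∀ z, f (-z) = f z) (n : ℕ)
    (hord : ((-(2 * n : ℤ) : ℤ) : WithTop ℤ) ≤ meromorphicOrderAt f 0) :
    ∃ P : ℂ[X], P.natDegree ≤ n ∧ ∀ z, z ∉ L.lattice → f z = P.eval (℘[L] z) :=
  even_elliptic_eq_polynomial_aux L n f han hper heven
    ((poleLE_iff f (2 * n)).mpr ⟨hmer, by simpa using hord⟩)

end Fermat.Agent.MAZ.EF51.Final
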